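import Mathlib

/-!
# S12 ⇐ S15, LOC-6: a combinatorial sum (Mathlib only)
-/

set_option autoImplicit false

namespace Fermat.Agent.S12.Loc

private theorem comb_gauss (h : ℕ) : 2 * ∑ x ∈ Finset.Icc 1 h, (x : ℤ) = h * (h + 1) := by
  induction h with
  | zero => simp
  | succ n ih =>
    rw [Finset.sum_Icc_succ_top (by omega), mul_add, ih]
    push_cast
    ring

private theorem comb_sum (h : ℕ) (s : Finset ℕ) (hs : s.card = h) (f : ℕ → ℤ)
    (hf : ∀ j ∈ s, 1 ≤ f j ∧ f j ≤ h) (hinj : Set.InjOn f s) :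
    2 * ∑ j ∈ s, f j = h * (h + 1) := by
  have himg : s.image f = Finset.Icc (1 : ℤ) h := by
    apply Finset.eq_of_subset_of_card_le
    · intro x hx
      obtain ⟨j, hj, rfl⟩ := Finset.mem_image.1 hx
      exact Finset.mem_Icc.2 (hf j hj)
    · rw [Int.card_Icc, Finset.card_image_of_injOn hinj, hs]
      simp
  have h1 : ∑ j ∈ s, f j = ∑ x ∈ s.image f, x := (Finset.sum_image (f := fun x => x) hinj).symm
  rw [h1, himg, ← comb_gauss h]
  congr 1
  have h2 : Finset.Icc (1 : ℤ) h = (Finset.Icc 1 h).image (fun n : ℕ => (n : ℤ)) := by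
    ext x
    rw [Finset.mem_Icc, Finset.mem_image]
    constructor
    · rintro ⟨hx1, hx2⟩
      exact ⟨x.toNat, Finset.mem_Icc.2 ⟨by omega, by omega⟩, by omega⟩
    · rintro ⟨n, hn, rfl⟩
      rw [Finset.mem_Icc] at hn
      omega
  rw [h2, Finset.sum_image (Nat.cast_injective.injOn)]

private theorem comb_injOn {p : ℕ} (hp : p.Prime) (m : ℤ) (hm : ¬ (p : ℤ) ∣ m) (f : ℕ → ℤ)
    (s : Finset ℕ) (hs : s ⊆ Finset.Ico 1 p)
    (h1 : ∀ j ∈ s, (p : ℤ) ∣ f j - m * j ∨ (p : ℤ) ∣ f j + m * j)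
    (hadd : ∀ j ∈ s, ∀ j' ∈ s, ¬ (p : ℤ) ∣ (j : ℤ) + j') : Set.InjOn f s := by
  have hpp : Prime (p : ℤ) := Nat.prime_iff_prime_int.1 hp
  intro j hj j' hj' hff
  have hj1 := Finset.mem_Ico.1 (hs hj)
  have hj2 := Finset.mem_Ico.1 (hs hj')
  have hsub : (p : ℤ) ∣ (j : ℤ) - j' → j = j' := by
    intro hd
    have h0 := Int.eq_zero_of_abs_lt_dvd hd (by rw [abs_lt]; constructor <;> omega)
    omega
  rcases h1 j hj with ha | ha <;> rcases h1 j' hj' with hb | hb
  · apply hsub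
    have h3 : (p : ℤ) ∣ m * ((j : ℤ) - j') := by
      have h4 := dvd_sub hb ha
      rw [hff] at h4
      have h5 : f j' - m * j' - (f j' - m * j) = m * ((j : ℤ) - j') := by ring
      rwa [h5] at h4
    exact (hpp.dvd_or_dvd h3).resolve_left hm
  · exfalso
    apply hadd j hj j' hj'
    have h3 : (p : ℤ) ∣ m * ((j : ℤ) + j') := by
      have h4 := dvd_sub hb ha
      rw [hff] at h4
      have h5 : f j' + m * j' - (f j' - m * j) = m * ((j : ℤ) + j') := by ring
      rwa [h5] at h4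
    exact (hpp.dvd_or_dvd h3).resolve_left hm
  · exfalso
    apply hadd j hj j' hj'
    have h3 : (p : ℤ) ∣ m * ((j : ℤ) + j') := by
      have h4 := dvd_sub ha hb
      rw [hff] at h4
      have h5 : f j' + m * j - (f j' - m * j') = m * ((j : ℤ) + j') := by ring
      rwa [h5] at h4
    exact (hpp.dvd_or_dvd h3).resolve_left hm
  · apply hsub
    have h3 : (p : ℤ) ∣ m * ((j : ℤ) - j') := by
      have h4 := dvd_sub ha hb
      rw [hff] at h4
      have h5 : f j' + m * j - (f j' + m * j') = m * ((j : ℤ) - j') := by ring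
      rwa [h5] at h4
    exact (hpp.dvd_or_dvd h3).resolve_left hm

/-- `f j ∈ (0, p/2)` is the absolute least residue of `± m j`: every value `1 .. (p-1)/2` is taken
exactly twice, so that `∑ f j = 2 (1 + 2 + .. + (p-1)/2) = (p² - 1)/4`.
(The fibres of `f` on `Ico 1 p` have at most two elements `j, p - j`.) -/
theorem comb {p : ℕ} (hp : p.Prime) (hp2 : p ≠ 2) (m : ℤ) (hm : ¬ (p : ℤ) ∣ m) (f : ℕ → ℤ)
    (h0 : ∀ j ∈ Finset.Ico 1 p, 0 < 2 * f j ∧ 2 * f j < p)
    (h1 : ∀ j ∈ Finset.Ico 1 p, (p : ℤ) ∣ f j - m * j ∨ (p : ℤ) ∣ f j + m * j) :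
    4 * ∑ j ∈ Finset.Ico 1 p, f j = (p : ℤ) ^ 2 - 1 := by
  obtain ⟨h, hh⟩ := (hp.eq_two_or_odd'.resolve_left hp2)
  have hs1 : Finset.Ico 1 (h + 1) ⊆ Finset.Ico 1 p := by
    intro j hj
    rw [Finset.mem_Ico] at hj ⊢
    omega
  have hs2 : Finset.Ico (h + 1) p ⊆ Finset.Ico 1 p := by
    intro j hj
    rw [Finset.mem_Ico] at hj ⊢
    omega
  have hb : ∀ j ∈ Finset.Ico 1 p, 1 ≤ f j ∧ f j ≤ h := by
    intro j hj
    have h3 := h0 j hj
    have h4 : (p : ℤ) = 2 * h + 1 := by exact_mod_cast hh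
    omega
  have e1 := comb_sum h (Finset.Ico 1 (h + 1)) (by simp) f (fun j hj => hb j (hs1 hj))
    (comb_injOn hp m hm f _ hs1 (fun j hj => h1 j (hs1 hj)) (by
      intro j hj j' hj' hd
      rw [Finset.mem_Ico] at hj hj'
      have h5 := Int.eq_zero_of_abs_lt_dvd hd (by rw [abs_lt]; constructor <;> omega)
      omega))
  have e2 := comb_sum h (Finset.Ico (h + 1) p) (by rw [Nat.card_Ico]; omega) f
    (fun j hj => hb j (hs2 hj))
    (comb_injOn hp m hm f _ hs2 (fun j hj => h1 j (hs2 hj)) (by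
      intro j hj j' hj' hd
      rw [Finset.mem_Ico] at hj hj'
      have hd' : (p : ℤ) ∣ (j : ℤ) + j' - p := dvd_sub hd (dvd_refl _)
      have h5 := Int.eq_zero_of_abs_lt_dvd hd' (by rw [abs_lt]; constructor <;> omega)
      omega))
  rw [← Finset.sum_Ico_consecutive f (by omega : 1 ≤ h + 1) (by omega : h + 1 ≤ p)]
  have h4 : (p : ℤ) = 2 * h + 1 := by exact_mod_cast hh
  rw [h4]
  linear_combination 2 * e1 + 2 * e2

end Fermat.Agent.S12.Loc
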